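/-
Program K (S31), leaf K-A part 1 (helper26): **faithfulness is preserved by flat base change**
(Mathlib only).

`R → A` flat, `Λ` a finitely presented `R`-module, `θ : Rz →ₐ[R] End_R Λ` injective, `ι : Λ →ₗ[R] M` a base
change to `A`.  Then `evB : A ⊗[R] Rz →ₐ[A] End_A M`, `(a ⊗ x) ↦ a • (θ x)_A`, is injective.
-/
import Mathlib

set_option autoImplicit false

namespace Fermat.Agent.ES.K.BaseChangeFaith26

open TensorProduct

variable {R A Λ M Rz : Type*} [CommRing R] [CommRing A] [Algebra R A]
  [AddCommGroup Λ] [Module R Λ]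
  [AddCommGroup M] [Module R M] [Module A M] [IsScalarTower R A M]
  [Ring Rz] [Algebra R Rz]
  (θ : Rz →ₐ[R] Module.End R Λ) (ι : Λ →ₗ[R] M) (hι : IsBaseChange A ι)

/-- the action of `A ⊗ Rz` on the base change `M` of `Λ`. -/
noncomputable def evB : A ⊗[R] Rz →ₐ[A] Module.End A M :=
  ((hι.equiv.conjAlgEquiv A : Module.End A (A ⊗[R] Λ) ≃ₐ[A] Module.End A M) :
      Module.End A (A ⊗[R] Λ) →ₐ[A] Module.End A M).comp
    ((LinearMap.tensorProductEnd R A Λ).comp (Algebra.TensorProduct.map (AlgHom.id A A) θ))

theorem evB_tmul (a : A) (x : Rz) :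
    evB θ ι hι (a ⊗ₜ[R] x) =
      hι.equiv.conjAlgEquiv A (a • (θ x).baseChange A) := by
  unfold evB
  rw [AlgHom.comp_apply, AlgHom.comp_apply, Algebra.TensorProduct.map_tmul, AlgHom.coe_id, id_eq]
  show hι.equiv.conjAlgEquiv A (LinearMap.tensorProductEnd R A Λ (a ⊗ₜ[R] θ x)) = _
  congr 1

theorem evB_tmul_apply (a : A) (x : Rz) (l : Λ) :
    evB θ ι hι (a ⊗ₜ[R] x) (ι l) = a • ι (θ x l) := by
  rw [evB_tmul, LinearEquiv.conjAlgEquiv_apply]
  simp only [LinearMap.comp_apply, LinearEquiv.coe_coe]
  rw [hι.equiv_symm_apply, LinearMap.smul_apply, LinearMap.baseChange_tmul, map_smul,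
    hι.equiv_tmul, one_smul]

theorem tensorProductEnd_injective [Module.Flat R A] [Module.FinitePresentation R Λ] :
    Function.Injective (LinearMap.tensorProductEnd R A Λ) := by
  have hbc := Module.FinitePresentation.isBaseChange_map R Λ Λ A
  have heq : (LinearMap.tensorProductEnd R A Λ : A ⊗[R] Module.End R Λ → _) = hbc.equiv := by
    funext t
    induction t using TensorProduct.induction_on with
    | zero => simp
    | tmul a f =>
      rw [hbc.equiv_tmul]
      rfl
    | add x y hx hy => rw [map_add, map_add, hx, hy]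
  rw [heq]
  exact hbc.equiv.injective

theorem map_injective [Module.Flat R A] (hθ : Function.Injective θ) :
    Function.Injective (Algebra.TensorProduct.map (AlgHom.id A A) θ) := by
  have heq : (Algebra.TensorProduct.map (AlgHom.id A A) θ : A ⊗[R] Rz → _) =
      θ.toLinearMap.lTensor A := by
    funext t
    induction t using TensorProduct.induction_on with
    | zero => simp
    | tmul a x => simp
    | add x y hx hy => rw [map_add, map_add, hx, hy]
  rw [heq]
  exact Module.Flat.lTensor_preserves_injective_linearMap _ hθ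

/-- **faithfulness is preserved by flat base change.** -/
theorem evB_injective [Module.Flat R A] [Module.FinitePresentation R Λ]
    (hθ : Function.Injective θ) : Function.Injective (evB θ ι hι) := by
  unfold evB
  simp only [AlgHom.coe_comp]
  exact (AlgEquiv.injective _).comp ((tensorProductEnd_injective).comp (map_injective θ hθ))

end Fermat.Agent.ES.K.BaseChangeFaith26
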