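/-
Program K (S31), leaf K-D part 1 (helper26): **Burnside's theorem from Schur's lemma** (Mathlib only).

A subalgebra `R` of `End_k V` (`V` finite dimensional) acting irreducibly on `V` and whose commutant
consists of scalars is all of `End_k V` (via Mathlib's Jacobson density theorem).  Consequences for a
monoid representation `ρ : G →* End_k V`: `span_k (range ρ) = ⊤`.
-/
import Mathlib

set_option autoImplicit false

namespace Fermat.Agent.ES.K.Burnside26

open Module

section Subalgebra

variable {k V : Type*} [Field k] [AddCommGroup V] [Module k V] [FiniteDimensional k V]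

/-- **Burnside from Schur** (Jacobson density): an irreducible subalgebra of `End_k V` with scalar
commutant is everything. -/
theorem subalgebra_eq_top_of_schur [Nontrivial V] (R : Subalgebra k (Module.End k V))
    (hirr : ∀ W : Submodule k V, (∀ r ∈ R, ∀ x ∈ W, r x ∈ W) → W = ⊥ ∨ W = ⊤)
    (hschur : ∀ x : Module.End k V, (∀ r ∈ R, x * r = r * x) → ∃ c : k, x = c • 1) :
    R = ⊤ := by
  classical
  -- `V` is a simple `R`-module
  have hsmul : ∀ (c : k) (v : V), c • v = (algebraMap k ↥R c) • v := by
    intro c v
    show c • v = ((algebraMap k ↥R c : ↥R) : Module.End k V) v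
    rw [Subalgebra.coe_algebraMap, Algebra.algebraMap_eq_smul_one, LinearMap.smul_apply,
      Module.End.one_apply]
  have : IsSimpleModule ↥R V := by
    rw [isSimpleModule_iff]
    refine { exists_pair_ne := ⟨⊥, ⊤, bot_ne_top⟩, eq_bot_or_eq_top := fun W' => ?_ }
    let W : Submodule k V :=
      { carrier := W'
        add_mem' := W'.add_mem
        zero_mem' := W'.zero_mem
        smul_mem' := fun c x hx => by
          show c • x ∈ W'
          rw [hsmul]
          exact W'.smul_mem _ hx }
    have hW : ∀ r ∈ R, ∀ x ∈ W, r x ∈ W := fun r hr x hx => W'.smul_mem ⟨r, hr⟩ hx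
    rcases hirr W hW with h | h
    · left
      rw [eq_bot_iff]
      intro x hx
      have : x ∈ W := hx
      rw [h] at this
      exact this
    · right
      rw [eq_top_iff]
      intro x _
      have : x ∈ W := by rw [h]; trivial
      exact this
  -- every `k`-endomorphism is linear over the commutant
  rw [eq_top_iff]
  intro f₀ _
  let f : Module.End (Module.End ↥R V) V :=
    { toFun := f₀
      map_add' := f₀.map_add
      map_smul' := fun e v => by
        -- `e` is `k`-linear and commutes with `R`, hence a scalar
        let e' : Module.End k V :=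
          { toFun := e
            map_add' := e.map_add
            map_smul' := fun c w => by
              show e (c • w) = c • e w
              rw [hsmul, e.map_smul, ← hsmul] }
        have hcomm : ∀ r ∈ R, e' * r = r * e' := by
          intro r hr
          ext w
          show e ((⟨r, hr⟩ : ↥R) • w) = (⟨r, hr⟩ : ↥R) • e w
          exact e.map_smul _ w
        obtain ⟨c, hc⟩ := hschur e' hcomm
        have he : ∀ w, e w = c • w := by
          intro w
          have h1 := LinearMap.congr_fun hc w
          rw [LinearMap.smul_apply, Module.End.one_apply] at h1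
          exact h1
        show f₀ (e v) = e (f₀ v)
        rw [he, he, f₀.map_smul] }
  let b := Module.finBasis k V
  obtain ⟨r, hr⟩ := jacobson_density f (Finset.univ.image b)
  have : f₀ = (r : Module.End k V) := by
    refine b.ext fun i => ?_
    have := hr (b i) (Finset.mem_image_of_mem _ (Finset.mem_univ i))
    exact this
  rw [this]
  exact r.2

end Subalgebra

section Representation

variable {k V G : Type*} [Field k] [AddCommGroup V] [Module k V] [FiniteDimensional k V] [Monoid G]

/-- **Burnside for a representation**: irreducible + scalar commutant ⇒ the image spans `End_k V`. -/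
theorem span_range_eq_top_of_schur [Nontrivial V] (ρ : G →* Module.End k V)
    (hirr : ∀ W : Submodule k V, (∀ g : G, ∀ x ∈ W, ρ g x ∈ W) → W = ⊥ ∨ W = ⊤)
    (hschur : ∀ x : Module.End k V, (∀ g : G, x * ρ g = ρ g * x) → ∃ c : k, x = c • 1) :
    Submodule.span k (Set.range ρ) = ⊤ := by
  have hadj : Subalgebra.toSubmodule (Algebra.adjoin k (Set.range ρ)) =
      Submodule.span k (Set.range ρ) := by
    rw [Algebra.adjoin_eq_span]
    congr 1
    have : (Submonoid.closure (Set.range ρ) : Set (Module.End k V)) = Set.range ρ := by
      have h1 : Set.range ρ = ((MonoidHom.mrange ρ : Submonoid (Module.End k V)) : Set _) := by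
        ext x; simp
      rw [h1, Submonoid.closure_eq]
    exact this
  have htop : Algebra.adjoin k (Set.range ρ) = ⊤ := by
    refine subalgebra_eq_top_of_schur _ (fun W hW => hirr W fun g x hx => ?_) (fun x hx => ?_)
    · exact hW (ρ g) (Algebra.subset_adjoin ⟨g, rfl⟩) x hx
    · exact hschur x fun g => hx (ρ g) (Algebra.subset_adjoin ⟨g, rfl⟩)
  rw [← hadj, htop, Algebra.top_toSubmodule]

end Representation

end Fermat.Agent.ES.K.Burnside26
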