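/-
Program K (S31), leaf K-A part 2 (helper26): **the `p`-adic Hecke algebra acts faithfully on the Tate
module of `J₀(N)`**.

`Bp p N S := ℤ_[p] ⊗[ℤ] heckeAlgebra N 2 S` (`S ⊇` primes of `N`).  From the comparison (K2)
`ι₀ : Λ → T_p J₀(N)` (base change `ℤ → ℤ_p`, Hecke equivariant) and FAITH (`FaithFinal26`):

* `evT : Bp p N S →ₐ[ℤ_[p]] End_{ℤ_p} (TJ p N)`, `evT_injective`;
* `evT_T : evT (1 ⊗ T_ℓ) = tT ℓ`, `evT_tmul`;
* `commute_rhoT_evT` : the Galois action commutes with `evT b`;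
* unconditional instances: `iotaJ`, `evJ`, ... built from `KummerSystemFinal18`.
-/
import Mathlib
import Fermat.Agent.ES.K.BaseChangeFaith26
import Fermat.Agent.ES.J.K2Final11
import Fermat.Agent.ES.J.KummerSystemFinal18
import Fermat.Agent.ES.HEQ.FaithFinal26
import Fermat.Agent.ES.J.TateJZero13

set_option autoImplicit false
set_option linter.unusedSectionVars false

noncomputable section

namespace Fermat.Agent.ES.K.HeckeTate26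

open TensorProduct CuspForm ModularCurve CongruenceSubgroup
open Fermat.Agent.ES.HEQ.FaithInst26 Fermat.Agent.ES.HEQ.FaithFinal26
open Fermat.Agent.ES.J.TateJZero13 Fermat.Agent.ES.K.BaseChangeFaith26

local notation "Qb" => AlgebraicClosure ℚ

variable (p : ℕ) [hp : Fact p.Prime] (N : ℕ) [NeZero N] (S : Set ℕ)

/-- the `p`-adic anemic Hecke algebra. -/
abbrev Bp : Type := ℤ_[p] ⊗[ℤ] ↥(heckeAlgebra N 2 S)

variable {p N}
variable (hS : ∀ q : ℕ, q.Prime → q ∣ N → q ∈ S)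
variable (ι₀ : ↥(Lam N) →ₗ[ℤ] TJ p N) (hι₀ : IsBaseChange ℤ_[p] ι₀)

/-- the action of the `p`-adic Hecke algebra on the Tate module. -/
def evT : Bp p N S →ₐ[ℤ_[p]] Module.End ℤ_[p] (TJ p N) :=
  evB (heckeLam S hS) ι₀ hι₀

theorem evT_tmul_apply (a : ℤ_[p]) (x : ↥(heckeAlgebra N 2 S)) (l : ↥(Lam N)) :
    evT S hS ι₀ hι₀ (a ⊗ₜ[ℤ] x) (ι₀ l) = a • ι₀ (heckeLam S hS x l) :=
  evB_tmul_apply _ _ _ a x l

/-- **faithfulness**. -/
theorem evT_injective : Function.Injective (evT S hS ι₀ hι₀) :=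
  haveI : Module.FinitePresentation ℤ ↥(Lam N) := Module.finitePresentation_of_finite ℤ _
  evB_injective _ _ _ (heckeLam_injective S hS)

theorem evT_tmul (a : ℤ_[p]) (x : ↥(heckeAlgebra N 2 S)) :
    evT S hS ι₀ hι₀ (a ⊗ₜ[ℤ] x) = a • evT S hS ι₀ hι₀ (1 ⊗ₜ[ℤ] x) := by
  rw [← map_smul, TensorProduct.smul_tmul', smul_eq_mul, mul_one]

variable (hT : ∀ (ℓ : ℕ) (hℓ : ℓ.Prime) (hℓN : ¬ ℓ ∣ N) (x : ↥(Lam N)),
  tT p N ⟨ℓ, hℓ⟩ (ι₀ x) = ι₀ (dcZ N ℓ hℓ hℓN x))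

include hT in
/-- `T_ℓ` acts as the Hecke correspondence. -/
theorem evT_T (ℓ : ℕ) (hℓ : ℓ.Prime) (hℓN : ¬ ℓ ∣ N) (hℓS : ℓ ∉ S) :
    evT S hS ι₀ hι₀ (1 ⊗ₜ[ℤ] heckeAlgebra.T hℓ hℓN hℓS) = tT p N ⟨ℓ, hℓ⟩ := by
  refine hι₀.algHom_ext _ _ fun l => ?_
  rw [evT_tmul_apply, one_smul, heckeLam_T' S hS ℓ hℓ hℓN hℓS, hT]

/-- the integral part `x ↦ evT (1 ⊗ x)`. -/
def evZ : ↥(heckeAlgebra N 2 S) →ₐ[ℤ] Module.End ℤ_[p] (TJ p N) :=
  ((evT S hS ι₀ hι₀).restrictScalars ℤ).comp Algebra.TensorProduct.includeRight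

theorem evZ_apply (x : ↥(heckeAlgebra N 2 S)) :
    evZ S hS ι₀ hι₀ x = evT S hS ι₀ hι₀ (1 ⊗ₜ[ℤ] x) := rfl

include hT in
/-- the Galois action commutes with the Hecke algebra. -/
theorem commute_rhoT_evZ (σ : Qb ≃ₐ[ℚ] Qb) (x : ↥(heckeAlgebra N 2 S)) :
    Commute (rhoT p N σ) (evZ S hS ι₀ hι₀ x) := by
  obtain ⟨x, hx⟩ := x
  induction hx using Algebra.adjoin_induction with
  | mem y hy =>
    rw [heckeGenerators_eq S hS] at hy
    obtain ⟨ℓ, hℓ, hℓN, hℓS, rfl⟩ := hy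
    have h1 : (⟨heckeTLin 2 hℓ hℓN, Algebra.subset_adjoin
        (heckeTLin_mem_heckeGenerators hℓ hℓN hℓS)⟩ : ↥(heckeAlgebra N 2 S)) =
        heckeAlgebra.T hℓ hℓN hℓS := rfl
    rw [evZ_apply]
    have := evT_T S hS ι₀ hι₀ hT ℓ hℓ hℓN hℓS
    rw [← h1] at this
    rw [this]
    exact commute_rhoT_tT σ ⟨ℓ, hℓ⟩
  | algebraMap r =>
    have : (⟨algebraMap ℤ _ r, Subalgebra.algebraMap_mem _ r⟩ : ↥(heckeAlgebra N 2 S)) =
        algebraMap ℤ ↥(heckeAlgebra N 2 S) r := rfl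
    rw [this, AlgHom.commutes]
    exact (Algebra.commutes r _).symm
  | add y z hy hz ihy ihz =>
    have : (⟨y + z, Subalgebra.add_mem _ hy hz⟩ : ↥(heckeAlgebra N 2 S)) = ⟨y, hy⟩ + ⟨z, hz⟩ := rfl
    rw [this, map_add]
    exact ihy.add_right ihz
  | mul y z hy hz ihy ihz =>
    have : (⟨y * z, Subalgebra.mul_mem _ hy hz⟩ : ↥(heckeAlgebra N 2 S)) = ⟨y, hy⟩ * ⟨z, hz⟩ := rfl
    rw [this, map_mul]
    exact ihy.mul_right ihz

include hT in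
theorem commute_rhoT_evT (σ : Qb ≃ₐ[ℚ] Qb) (b : Bp p N S) :
    Commute (rhoT p N σ) (evT S hS ι₀ hι₀ b) := by
  induction b using TensorProduct.induction_on with
  | zero => rw [map_zero]; exact Commute.zero_right _
  | tmul a x =>
    rw [evT_tmul]
    exact (commute_rhoT_evZ S hS ι₀ hι₀ hT σ x).smul_right a
  | add b c hb hc => rw [map_add]; exact hb.add_right hc

/-! ### the unconditional instance -/

section Final

open Fermat.Agent.ES.J.KummerSystemFinal18 Fermat.Agent.ES.J.K2Final11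

variable (p N)

/-- the comparison `Λ → T_p J₀(N)` (unconditional). -/
def iotaJ : ↥(Lam N) →ₗ[ℤ] TJ p N := (k2 (kummerSystemJ p N) (heckeCompatJ p N)).choose

theorem isBaseChange_iotaJ : IsBaseChange ℤ_[p] (iotaJ p N) :=
  (k2 (kummerSystemJ p N) (heckeCompatJ p N)).choose_spec.1

theorem tT_iotaJ (ℓ : ℕ) (hℓ : ℓ.Prime) (hℓN : ¬ ℓ ∣ N) (x : ↥(Lam N)) :
    tT p N ⟨ℓ, hℓ⟩ (iotaJ p N x) = iotaJ p N (dcZ N ℓ hℓ hℓN x) :=
  (k2 (kummerSystemJ p N) (heckeCompatJ p N)).choose_spec.2 ℓ hℓ hℓN x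

variable {p N}

/-- **the action of the `p`-adic Hecke algebra on `T_p J₀(N)`** (unconditional). -/
def evJ : Bp p N S →ₐ[ℤ_[p]] Module.End ℤ_[p] (TJ p N) :=
  evT S hS (iotaJ p N) (isBaseChange_iotaJ p N)

theorem evJ_injective : Function.Injective (evJ (p := p) S hS) :=
  evT_injective S hS _ _

theorem evJ_T (ℓ : ℕ) (hℓ : ℓ.Prime) (hℓN : ¬ ℓ ∣ N) (hℓS : ℓ ∉ S) :
    evJ (p := p) S hS (1 ⊗ₜ[ℤ] heckeAlgebra.T hℓ hℓN hℓS) = tT p N ⟨ℓ, hℓ⟩ :=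
  evT_T S hS _ _ (tT_iotaJ p N) ℓ hℓ hℓN hℓS

theorem commute_rhoT_evJ (σ : Qb ≃ₐ[ℚ] Qb) (b : Bp p N S) :
    Commute (rhoT p N σ) (evJ (p := p) S hS b) :=
  commute_rhoT_evT S hS _ _ (tT_iotaJ p N) σ b

end Final

end Fermat.Agent.ES.K.HeckeTate26
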