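/-
Program K (S31), leaf K-D part 2 (helper26): **trace pairing against an absolutely irreducible
representation over a local ring** (Mathlib + Burnside26 + Prelude + S53/ResidualCore).

* `mem_smul_top_of_baseChange_eq_zero` : an endomorphism of a finite free module over a local ring
  whose reduction vanishes lies in `𝔪 • ⊤`;
* `span_range_eq_top` (Nakayama): if the reductions `ρ̄ g` span `End_κ (κ ⊗ V)`, the `ρ g` span `End_A V`;
* `eq_zero_of_trace_mul_eq_zero` : then `tr (Y * ρ g) = 0 ∀ g` implies `Y = 0`;
* for a `GaloisRepAdic A` with absolutely irreducible residual representation: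
  `galoisRepAdic_span_range_eq_top`, `galoisRepAdic_eq_one_of_trace_mul_eq` (`tr ρ(σ g) = tr ρ(g)` for
  all `g` implies `ρ σ = 1`).
-/
import Mathlib
import Fermat.Agent.ES.K.Burnside26
import Fermat.Agent.S53.ResidualCore

set_option autoImplicit false

namespace Fermat.Agent.ES.K.TraceKill26

open Module TensorProduct

section Local

variable {A : Type*} [CommRing A] [IsLocalRing A] {V : Type*} [AddCommGroup V] [Module A V]
  [Module.Free A V] [Module.Finite A V] {G : Type*} [Monoid G]

local notation "κ" => IsLocalRing.ResidueField A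

/-- an endomorphism whose reduction vanishes lies in `𝔪 • ⊤`. -/
theorem mem_smul_top_of_baseChange_eq_zero (Z : Module.End A V)
    (hZ : Z.baseChange κ = 0) :
    Z ∈ (IsLocalRing.maximalIdeal A) • (⊤ : Submodule A (Module.End A V)) := by
  classical
  let b := Module.Free.chooseBasis A V
  let M := LinearMap.toMatrix b b Z
  have hM : ∀ i j, M i j ∈ IsLocalRing.maximalIdeal A := by
    intro i j
    have h1 := LinearMap.toMatrix_baseChange (A := κ) Z b b
    rw [hZ, map_zero] at h1
    have h2 := congrFun (congrFun h1 i) j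
    simp only [Matrix.zero_apply, Matrix.map_apply] at h2
    rw [IsLocalRing.ResidueField.algebraMap_eq] at h2
    exact (IsLocalRing.residue_eq_zero_iff _).mp h2.symm
  have hZ' : Z = ∑ i, ∑ j, M i j • (LinearMap.toMatrix b b).symm (Matrix.single i j (1 : A)) := by
    apply (LinearMap.toMatrix b b).injective
    simp only [map_sum, map_smul, LinearEquiv.apply_symm_apply]
    conv_lhs => rw [show LinearMap.toMatrix b b Z = M from rfl, Matrix.matrix_eq_sum_single M]
    refine Finset.sum_congr rfl fun i _ => Finset.sum_congr rfl fun j _ => ?_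
    rw [Matrix.smul_single, smul_eq_mul, mul_one]
  rw [hZ']
  refine Submodule.sum_mem _ fun i _ => Submodule.sum_mem _ fun j _ => ?_
  exact Submodule.smul_mem_smul (hM i j) Submodule.mem_top

/-- **Nakayama**: if the reductions span, the representation spans. -/
theorem span_range_eq_top (ρ : G →* Module.End A V)
    (hres : Submodule.span κ (Set.range fun g : G => (ρ g).baseChange κ) = ⊤) :
    Submodule.span A (Set.range ρ) = ⊤ := by
  classical
  -- the reductions of elements of the span form a `κ`-subspace
  let S : Submodule κ (Module.End κ (κ ⊗[A] V)) :=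
    { carrier := {x | ∃ Y ∈ Submodule.span A (Set.range ρ), Y.baseChange κ = x}
      add_mem' := by
        rintro _ _ ⟨Y₁, h₁, rfl⟩ ⟨Y₂, h₂, rfl⟩
        exact ⟨Y₁ + Y₂, Submodule.add_mem _ h₁ h₂, LinearMap.baseChange_add _ _⟩
      zero_mem' := ⟨0, Submodule.zero_mem _, LinearMap.baseChange_zero⟩
      smul_mem' := by
        rintro c _ ⟨Y, hY, rfl⟩
        obtain ⟨a, rfl⟩ := IsLocalRing.residue_surjective c
        refine ⟨a • Y, Submodule.smul_mem _ a hY, ?_⟩
        rw [LinearMap.baseChange_smul]
        ext v
        simp only [LinearMap.smul_apply, AlgebraTensorModule.curry_apply, curry_apply,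
          LinearMap.coe_restrictScalars]
        rw [← IsLocalRing.ResidueField.algebraMap_eq, algebraMap_smul] }
  have hS : S = ⊤ := by
    rw [eq_top_iff, ← hres, Submodule.span_le]
    rintro _ ⟨g, rfl⟩
    exact ⟨ρ g, Submodule.subset_span ⟨g, rfl⟩, rfl⟩
  rw [eq_top_iff]
  refine Submodule.le_of_le_smul_of_le_jacobson_bot (I := IsLocalRing.maximalIdeal A)
    (Module.finite_def.mp inferInstance) ?_ ?_
  · rw [IsLocalRing.jacobson_eq_maximalIdeal ⊥ bot_ne_top]
  · intro X _
    have hX : X.baseChange κ ∈ S := by rw [hS]; trivial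
    obtain ⟨Y, hY, hYX⟩ := hX
    have h0 : (X - Y).baseChange κ = 0 := by
      rw [LinearMap.baseChange_sub, hYX]
      exact sub_self (X.baseChange κ : Module.End κ (κ ⊗[A] V))
    have h1 := mem_smul_top_of_baseChange_eq_zero (X - Y) h0
    have : X = Y + (X - Y) := by abel
    rw [this]
    exact Submodule.add_mem_sup hY h1

omit [IsLocalRing A] in
/-- **nondegeneracy of the trace pairing against a spanning family.** -/
theorem eq_zero_of_trace_mul_eq_zero (ρ : G →* Module.End A V)
    (hspan : Submodule.span A (Set.range ρ) = ⊤) (Y : Module.End A V)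
    (hY : ∀ g : G, LinearMap.trace A V (Y * ρ g) = 0) : Y = 0 := by
  classical
  have hall : ∀ X : Module.End A V, LinearMap.trace A V (Y * X) = 0 := by
    intro X
    have hX : X ∈ Submodule.span A (Set.range ρ) := by rw [hspan]; trivial
    induction hX using Submodule.span_induction with
    | mem x hx =>
      obtain ⟨g, rfl⟩ := hx
      exact hY g
    | zero => rw [mul_zero, map_zero]
    | add x y _ _ hx hy => rw [mul_add, map_add, hx, hy, add_zero]
    | smul a x _ hx => rw [mul_smul_comm, map_smul, hx, smul_zero]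
  let b := Module.Free.chooseBasis A V
  apply (LinearMap.toMatrix b b).injective
  rw [map_zero]
  ext i j
  have h1 := hall ((LinearMap.toMatrix b b).symm (Matrix.single j i (1 : A)))
  rw [LinearMap.trace_eq_matrix_trace A b, LinearMap.toMatrix_mul,
    LinearEquiv.apply_symm_apply, Matrix.trace_mul_single] at h1
  simpa using h1

end Local

section Prelude

variable {A : Type} [CommRing A] [IsLocalRing A]

local notation "Γ" => (AlgebraicClosure ℚ ≃ₐ[ℚ] AlgebraicClosure ℚ)

/-- an absolutely irreducible residual representation is irreducible over the ground field. -/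
theorem isIrreducible_of_isAbsolutelyIrreducible {k : Type} [Field k] (ρbar : ResidualGaloisRep k)
    (habs : ρbar.IsAbsolutelyIrreducible) : ρbar.IsIrreducible := by
  classical
  intro W hW
  let K := AlgebraicClosure k
  by_contra hcon
  rw [not_or] at hcon
  obtain ⟨hbot, htop⟩ := hcon
  let WK : Submodule K (K ⊗[k] ρbar.V) := Submodule.span K ((TensorProduct.mk k K ρbar.V 1) '' W)
  have hWK : ∀ σ : Γ, ∀ y ∈ WK, (ρbar.baseChange K).ρ σ y ∈ WK := by
    intro σ y hy
    induction hy using Submodule.span_induction with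
    | mem y hy =>
      obtain ⟨w, hw, rfl⟩ := hy
      refine Submodule.subset_span ⟨ρbar.ρ σ w, hW σ w hw, ?_⟩
      show (1 : K) ⊗ₜ[k] (ρbar.ρ σ w) = ((ρbar.ρ σ).baseChange K) ((1 : K) ⊗ₜ[k] w)
      rw [LinearMap.baseChange_tmul]
    | zero => rw [map_zero]; exact Submodule.zero_mem _
    | add x y _ _ hx hy => rw [map_add]; exact Submodule.add_mem _ hx hy
    | smul a x _ hx => rw [map_smul]; exact Submodule.smul_mem _ a hx
  rcases habs WK hWK with h | h
  · -- `WK = ⊥` contradicts `W ≠ ⊥`
    obtain ⟨w, hw, hw0⟩ := (Submodule.ne_bot_iff W).mp hbot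
    have h1 : (1 : K) ⊗ₜ[k] w ∈ WK := Submodule.subset_span ⟨w, hw, rfl⟩
    rw [h, Submodule.mem_bot] at h1
    exact Fermat.Agent.S53.one_tmul_ne_zero ρbar K hw0 h1
  · -- `WK = ⊤` contradicts `W ≠ ⊤`: a functional vanishing on `W`
    obtain ⟨φ, hφ0, hφW⟩ := Submodule.exists_dual_map_eq_bot_of_lt_top (lt_top_iff_ne_top.mpr htop)
      inferInstance
    apply hφ0
    ext v
    have hvan : ∀ y ∈ WK, (LinearMap.baseChange K (φ : ρbar.V →ₗ[k] k)) y = 0 := by
      intro y hy
      induction hy using Submodule.span_induction with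
      | mem y hy =>
        obtain ⟨w, hw, rfl⟩ := hy
        show (LinearMap.baseChange K (φ : ρbar.V →ₗ[k] k)) ((1 : K) ⊗ₜ[k] w) = 0
        rw [LinearMap.baseChange_tmul]
        have : φ w = 0 := by
          have : φ w ∈ W.map φ := ⟨w, hw, rfl⟩
          rw [hφW] at this
          exact this
        rw [this, TensorProduct.tmul_zero]
      | zero => rw [map_zero]
      | add x y _ _ hx hy => rw [map_add, hx, hy, add_zero]
      | smul a x _ hx => rw [map_smul, hx, smul_zero]
    have h1 := hvan ((1 : K) ⊗ₜ[k] v) (by rw [h]; trivial)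
    rw [LinearMap.baseChange_tmul] at h1
    have h2 : (1 : K) ⊗ₜ[k] (φ v) = algebraMap k K (φ v) ⊗ₜ[k] (1 : k) := by
      rw [Algebra.algebraMap_eq_smul_one, TensorProduct.smul_tmul, smul_eq_mul, mul_one]
    rw [h2] at h1
    have h3 := congrArg (TensorProduct.rid k K) h1
    rw [TensorProduct.rid_tmul, one_smul, map_zero] at h3
    exact (map_eq_zero_iff _ (algebraMap k K).injective).mp h3

/-- the image of an absolutely irreducible residual representation spans. -/
theorem residual_span_eq_top {k : Type} [Field k] (ρbar : ResidualGaloisRep k)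
    (habs : ρbar.IsAbsolutelyIrreducible) :
    Submodule.span k (Set.range ρbar.ρ) = ⊤ := by
  have : Nontrivial ρbar.V := Fermat.Agent.S53.residual_nontrivial ρbar
  have : FiniteDimensional k ρbar.V := ρbar.instModuleFinite
  exact Burnside26.span_range_eq_top_of_schur ρbar.ρ
    (isIrreducible_of_isAbsolutelyIrreducible ρbar habs)
    (fun x hx => Fermat.Agent.S53.schur_end ρbar habs x hx)

/-- **the image of a residually absolutely irreducible representation spans `End_A V`.** -/
theorem galoisRepAdic_span_range_eq_top (ρ : GaloisRepAdic A)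
    (habs : ρ.residual.IsAbsolutelyIrreducible) :
    Submodule.span A (Set.range ρ.ρ) = ⊤ :=
  span_range_eq_top ρ.ρ (residual_span_eq_top ρ.residual habs)

/-- **a Galois element acting trivially on all traces acts trivially**: if
`tr ρ(σ g) = tr ρ(g)` for all `g` and `ρ` is residually absolutely irreducible, then `ρ σ = 1`. -/
theorem galoisRepAdic_eq_one_of_trace_mul_eq (ρ : GaloisRepAdic A)
    (habs : ρ.residual.IsAbsolutelyIrreducible) (σ : Γ)
    (h : ∀ g : Γ, LinearMap.trace A ρ.V (ρ.ρ (σ * g)) = LinearMap.trace A ρ.V (ρ.ρ g)) :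
    ρ.ρ σ = 1 := by
  have h0 := eq_zero_of_trace_mul_eq_zero ρ.ρ (galoisRepAdic_span_range_eq_top ρ habs) (ρ.ρ σ - 1)
    (fun g => by
      rw [sub_mul, one_mul, map_sub, ← map_mul, h g, sub_self])
  exact sub_eq_zero.mp h0

end Prelude

end Fermat.Agent.ES.K.TraceKill26
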